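import Mathlib

/-!
# Row LT, tower T7, leaf T7.14.6a-F.8 `CoreOfPosC57`: the abstract glue (helper346), Mathlib only

OFF-MAIN.  From a `lintegral` identity for non-negative functions with an extended counting
function `N` to the Bochner identity for bounded real / complex functions with the counting
function `n` (`n = N` wherever `N < ∞`).
-/

set_option autoImplicit false

open MeasureTheory
open scoped ENNReal

noncomputable section

namespace Fermat.Agent.LT.T7.H346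

variable {X P : Type*} [MeasurableSpace X] [MeasurableSpace P]

/-- A non-negative measurable function with finite `lintegral` is integrable. -/
theorem integrable_of_lintegral_ofReal346 {ρ : Measure P} {w : P → ℝ} (hw0 : ∀ p, 0 ≤ w p)
    (hwm : Measurable w) (hwfin : ∫⁻ p, ENNReal.ofReal (w p) ∂ρ < ⊤) : Integrable w ρ := by
  have h := integrable_toReal_of_lintegral_ne_top
    (hwm.ennreal_ofReal.aemeasurable (μ := ρ)) hwfin.ne
  refine h.congr (Filter.Eventually.of_forall fun p => ?_)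
  exact ENNReal.toReal_ofReal (hw0 p)

/-- **The glue, real case.** -/
theorem integral_mul_card_eq346 (μ : Measure X) (ρ : Measure P) (N : X → ℝ≥0∞) (n : X → ℕ)
    (j : P → X) (w : P → ℝ) (c₀ : ℝ)
    (hN : Measurable N) (hn : ∀ x, N x < ⊤ → (n x : ℝ≥0∞) = N x)
    (hNfin : ∫⁻ x, N x ∂μ < ⊤)
    (hw0 : ∀ p, 0 ≤ w p) (hwm : Measurable w) (hwfin : ∫⁻ p, ENNReal.ofReal (w p) ∂ρ < ⊤)
    (hc₀ : 0 ≤ c₀)
    (f : X → ℝ) (hf : Measurable f) (hfj : Measurable fun p => f (j p)) (C : ℝ)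
    (hC : ∀ x, |f x| ≤ C)
    (hp : ∫⁻ x, ENNReal.ofReal (f x) * N x ∂μ
      = ENNReal.ofReal c₀ * ∫⁻ p, ENNReal.ofReal (f (j p)) * ENNReal.ofReal (w p) ∂ρ)
    (hm : ∫⁻ x, ENNReal.ofReal (-f x) * N x ∂μ
      = ENNReal.ofReal c₀ * ∫⁻ p, ENNReal.ofReal (-f (j p)) * ENNReal.ofReal (w p) ∂ρ) :
    ∫ x, f x * (n x : ℝ) ∂μ = c₀ * ∫ p, f (j p) * w p ∂ρ := by
  have hae : ∀ᵐ x ∂μ, N x < ⊤ := ae_lt_top hN hNfin.ne
  have hnN : ∀ᵐ x ∂μ, (N x).toReal = (n x : ℝ) := hae.mono fun x hx => by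
    rw [← hn x hx]
    simp
  have hNint : Integrable (fun x => (N x).toReal) μ :=
    integrable_toReal_of_lintegral_ne_top hN.aemeasurable hNfin.ne
  have hnint : Integrable (fun x => (n x : ℝ)) μ := hNint.congr hnN
  have hfn : Integrable (fun x => f x * (n x : ℝ)) μ :=
    hnint.bdd_mul hf.aestronglyMeasurable (c := C)
      (Filter.Eventually.of_forall fun x => by rw [Real.norm_eq_abs]; exact hC x)
  have hwint : Integrable w ρ := integrable_of_lintegral_ofReal346 hw0 hwm hwfin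
  have hfw : Integrable (fun p => f (j p) * w p) ρ :=
    hwint.bdd_mul hfj.aestronglyMeasurable (c := C)
      (Filter.Eventually.of_forall fun p => by rw [Real.norm_eq_abs]; exact hC (j p))
  -- the four lintegrals
  have e1 : ∫⁻ x, ENNReal.ofReal (f x * (n x : ℝ)) ∂μ = ∫⁻ x, ENNReal.ofReal (f x) * N x ∂μ := by
    refine lintegral_congr_ae (hae.mono fun x hx => ?_)
    show ENNReal.ofReal (f x * (n x : ℝ)) = ENNReal.ofReal (f x) * N x
    rw [ENNReal.ofReal_mul' (Nat.cast_nonneg _), ENNReal.ofReal_natCast, hn x hx]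
  have e2 : ∫⁻ x, ENNReal.ofReal (-(f x * (n x : ℝ))) ∂μ
      = ∫⁻ x, ENNReal.ofReal (-f x) * N x ∂μ := by
    refine lintegral_congr_ae (hae.mono fun x hx => ?_)
    show ENNReal.ofReal (-(f x * (n x : ℝ))) = ENNReal.ofReal (-f x) * N x
    rw [← neg_mul, ENNReal.ofReal_mul' (Nat.cast_nonneg _), ENNReal.ofReal_natCast, hn x hx]
  have e3 : ∫⁻ p, ENNReal.ofReal (f (j p) * w p) ∂ρ
      = ∫⁻ p, ENNReal.ofReal (f (j p)) * ENNReal.ofReal (w p) ∂ρ := by
    refine lintegral_congr fun p => ?_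
    rw [ENNReal.ofReal_mul' (hw0 p)]
  have e4 : ∫⁻ p, ENNReal.ofReal (-(f (j p) * w p)) ∂ρ
      = ∫⁻ p, ENNReal.ofReal (-f (j p)) * ENNReal.ofReal (w p) ∂ρ := by
    refine lintegral_congr fun p => ?_
    rw [← neg_mul, ENNReal.ofReal_mul' (hw0 p)]
  rw [integral_eq_lintegral_pos_part_sub_lintegral_neg_part hfn,
    integral_eq_lintegral_pos_part_sub_lintegral_neg_part hfw, e1, e2, e3, e4, hp, hm,
    ENNReal.toReal_mul, ENNReal.toReal_mul, ENNReal.toReal_ofReal hc₀]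
  ring

/-- **The glue, complex case.** -/
theorem integral_mul_card_eq_complex346 (μ : Measure X) (ρ : Measure P) (N : X → ℝ≥0∞)
    (n : X → ℕ) (j : P → X) (w : P → ℝ) (c₀ : ℝ)
    (hN : Measurable N) (hn : ∀ x, N x < ⊤ → (n x : ℝ≥0∞) = N x)
    (hNfin : ∫⁻ x, N x ∂μ < ⊤)
    (hw0 : ∀ p, 0 ≤ w p) (hwm : Measurable w) (hwfin : ∫⁻ p, ENNReal.ofReal (w p) ∂ρ < ⊤)
    (hc₀ : 0 ≤ c₀)
    (Φ : X → ℂ) (hΦ : Measurable Φ) (hΦj : Measurable fun p => Φ (j p)) (C : ℝ)
    (hC : ∀ x, ‖Φ x‖ ≤ C)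
    (H : ∀ f : X → ℝ, (f = fun x => (Φ x).re) ∨ (f = fun x => -(Φ x).re) ∨
        (f = fun x => (Φ x).im) ∨ (f = fun x => -(Φ x).im) →
      ∫⁻ x, ENNReal.ofReal (f x) * N x ∂μ
        = ENNReal.ofReal c₀ * ∫⁻ p, ENNReal.ofReal (f (j p)) * ENNReal.ofReal (w p) ∂ρ) :
    ∫ x, Φ x * (((n x : ℕ) : ℝ) : ℂ) ∂μ
      = (c₀ : ℂ) * ∫ p, Φ (j p) * ((w p : ℝ) : ℂ) ∂ρ := by
  have hre := integral_mul_card_eq346 μ ρ N n j w c₀ hN hn hNfin hw0 hwm hwfin hc₀
    (fun x => (Φ x).re) (Complex.measurable_re.comp hΦ) (Complex.measurable_re.comp hΦj) C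
    (fun x => (Complex.abs_re_le_norm _).trans (hC x))
    (H _ (Or.inl rfl)) (H _ (Or.inr (Or.inl rfl)))
  have him := integral_mul_card_eq346 μ ρ N n j w c₀ hN hn hNfin hw0 hwm hwfin hc₀
    (fun x => (Φ x).im) (Complex.measurable_im.comp hΦ) (Complex.measurable_im.comp hΦj) C
    (fun x => (Complex.abs_im_le_norm _).trans (hC x))
    (H _ (Or.inr (Or.inr (Or.inl rfl)))) (H _ (Or.inr (Or.inr (Or.inr rfl))))
  -- integrability
  have hae : ∀ᵐ x ∂μ, N x < ⊤ := ae_lt_top hN hNfin.ne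
  have hnN : ∀ᵐ x ∂μ, (N x).toReal = (n x : ℝ) := hae.mono fun x hx => by
    rw [← hn x hx]
    simp
  have hNint : Integrable (fun x => (N x).toReal) μ :=
    integrable_toReal_of_lintegral_ne_top hN.aemeasurable hNfin.ne
  have hnint : Integrable (fun x => (((n x : ℕ) : ℝ) : ℂ)) μ := (hNint.congr hnN).ofReal
  have hΦn : Integrable (fun x => Φ x * (((n x : ℕ) : ℝ) : ℂ)) μ :=
    hnint.bdd_mul hΦ.aestronglyMeasurable (c := C) (Filter.Eventually.of_forall hC)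
  have hwint : Integrable (fun p => ((w p : ℝ) : ℂ)) ρ :=
    (integrable_of_lintegral_ofReal346 hw0 hwm hwfin).ofReal
  have hΦw : Integrable (fun p => Φ (j p) * ((w p : ℝ) : ℂ)) ρ :=
    hwint.bdd_mul hΦj.aestronglyMeasurable (c := C)
      (Filter.Eventually.of_forall fun p => hC (j p))
  rw [← integral_re_add_im hΦn, ← integral_re_add_im hΦw]
  have r1 : (fun x => RCLike.re (Φ x * (((n x : ℕ) : ℝ) : ℂ))) = fun x => (Φ x).re * (n x : ℝ) := by
    funext x
    simp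
  have r2 : (fun x => RCLike.im (Φ x * (((n x : ℕ) : ℝ) : ℂ))) = fun x => (Φ x).im * (n x : ℝ) := by
    funext x
    simp
  have r3 : (fun p => RCLike.re (Φ (j p) * ((w p : ℝ) : ℂ))) = fun p => (Φ (j p)).re * w p := by
    funext p
    simp
  have r4 : (fun p => RCLike.im (Φ (j p) * ((w p : ℝ) : ℂ))) = fun p => (Φ (j p)).im * w p := by
    funext p
    simp
  rw [r1, r2, r3, r4, hre, him]
  push_cast
  simp only [RCLike.I_to_complex]
  rw [mul_add, mul_assoc]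
  rfl

end Fermat.Agent.LT.T7.H346

end
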