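import Fermat.Agent.LT.T7.H57.FoldSpec3
import Fermat.Agent.LT.T7.H724.CountMeas
import Fermat.Agent.LT.H11.SC
import Fermat.Agent.LT.T7.H346.GlueAbs

/-!
# Row LT, tower T7, leaf T7.14.6a-F.8 `H57.CoreOfPosC57` (helper346) -- OFF-MAIN

`coreOfPosC346 K : H57.CoreOfPosC57 K` (`= CorePosC57 K → CoreC57 K`), VERBATIM vs
`LT/T7/H57/FoldSpec3.lean` (helper57, sha256 `6882255d`), UNCONDITIONAL (no extra hypothesis:
continuity of `iota57` and the measurability of the module are proved here).

* measurability of `g ↦ encard (cntSet 𝔪 Y g)`: countable cover (assets of helper724,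
  `CountMeasAbs.lean`, `measurableSet_mem_cntSet724`);
* `Φ ≡ 1` gives `∫⁻_F encard < ∞`, hence `encard < ∞` a.e. and `cnt = encard` a.e.;
* the product `σ`-algebra on `𝔸 × 𝔸ˣ × 𝔸ˣ` is the Borel `σ`-algebra (second countability,
  `LT/H11/SC.lean`), `iota57` is continuous;
* positive / negative parts of `Re Φ`, `Im Φ`: `GlueAbs.lean`.
-/

set_option autoImplicit false

open AutomorphicForm IsDedekindDomain NumberField Filter Topology MeasureTheory
open scoped ComplexConjugate ENNReal

noncomputable section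

namespace Fermat.Agent.LT.T7.H346

open Fermat.Agent.LT.H556 Fermat.Agent.LT.H556.A0 Fermat.Agent.LT.T7 Fermat.Agent.LT.T7.Rigid
open Fermat.Agent.LT.T7.H57

attribute [local instance] Fermat.Agent.LT.T5.instMeasurableSpaceG

/-! ## The extended counting function -/

/-- `a ↦ encard {x | a ∈ A x}` is measurable for a countable family of measurable sets. -/
theorem measurable_encard346 {α P : Type*} [MeasurableSpace α] [Countable P]
    (A : P → Set α) (hA : ∀ x, MeasurableSet (A x)) :
    Measurable fun a => (({x | a ∈ A x}.encard : ℕ∞) : ℝ≥0∞) := by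
  classical
  refine H724.measurable_of_countable_cover724
    (ι := Option (Finset P))
    (fun o => match o with
      | none => {a | {x | a ∈ A x}.Infinite}
      | some T => {a | {x | a ∈ A x} = (T : Set P)})
    ?_ ?_
    (fun o => match o with
      | none => fun _ => (⊤ : ℝ≥0∞)
      | some T => fun _ => (T.card : ℝ≥0∞))
    ?_ _ ?_
  · rintro (_ | T)
    · exact H724.measurableSet_infinite724 A hA
    · exact H724.measurableSet_eq_finset724 A hA T
  · intro a
    by_cases hfin : {x | a ∈ A x}.Finite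
    · obtain ⟨T, hT⟩ := hfin.exists_finset_coe
      exact ⟨some T, hT.symm⟩
    · exact ⟨none, hfin⟩
  · rintro (_ | T)
    · exact measurable_const
    · exact measurable_const
  · rintro (_ | T) a ha
    · have hinf : {x | a ∈ A x}.Infinite := ha
      show (({x | a ∈ A x}.encard : ℕ∞) : ℝ≥0∞) = ⊤
      rw [hinf.encard_eq, ENat.toENNReal_top]
    · have hT : {x | a ∈ A x} = (T : Set P) := ha
      show (({x | a ∈ A x}.encard : ℕ∞) : ℝ≥0∞) = (T.card : ℝ≥0∞)
      rw [hT, Set.encard_coe_eq_coe_finsetCard, ENat.toENNReal_coe]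

/-- `Nat.card = encard` where the latter is finite. -/
theorem natCard_eq_encard346 {P : Type*} (s : Set P)
    (h : ((s.encard : ℕ∞) : ℝ≥0∞) < ⊤) :
    ((Nat.card s : ℕ) : ℝ≥0∞) = ((s.encard : ℕ∞) : ℝ≥0∞) := by
  have hfin : s.Finite := by
    rw [← Set.encard_ne_top_iff]
    intro htop
    rw [htop, ENat.toENNReal_top] at h
    exact lt_irrefl _ h
  rw [Nat.card_coe_set_eq, ← hfin.cast_ncard_eq, ENat.toENNReal_coe]

variable (K : Type) [Field K] [NumberField K]

/-! ## Topology and measurability on `𝔸 × 𝔸ˣ × 𝔸ˣ` -/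

theorem secondCountable_adl346 : SecondCountableTopology (Adl K) :=
  Fermat.Agent.LT.H11.SC.secondCountableTopology_adeleRing_h11 K

theorem secondCountable_idl346 : SecondCountableTopology (Adl K)ˣ := by
  have h1 : SecondCountableTopology (Adl K) := secondCountable_adl346 K
  have h2 : SecondCountableTopology (Adl K)ᵐᵒᵖ :=
    (MulOpposite.opHomeomorph (M := Adl K)).symm.secondCountableTopology
  exact (Units.isEmbedding_embedProduct (M := Adl K)).secondCountableTopology

theorem continuous_unip346 : Continuous (fun x : Adl K => Fermat.Agent.LT.T3.unip K x) := by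
  rw [Units.continuous_iff]
  constructor
  · show Continuous fun x : Adl K => (!![1, x; 0, 1] : Matrix (Fin 2) (Fin 2) (Adl K))
    refine continuous_matrix fun i j => ?_
    fin_cases i <;> fin_cases j <;> simp <;> fun_prop
  · show Continuous fun x : Adl K => (!![1, -x; 0, 1] : Matrix (Fin 2) (Fin 2) (Adl K))
    refine continuous_matrix fun i j => ?_
    fin_cases i <;> fin_cases j <;> simp <;> fun_prop

theorem continuous_dgA346 : Continuous (fun y : (Adl K)ˣ => (dgA y : G K)) := by
  rw [Units.continuous_iff]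
  constructor
  · show Continuous fun y : (Adl K)ˣ =>
      (!![(y : Adl K), 0; 0, 1] : Matrix (Fin 2) (Fin 2) (Adl K))
    refine continuous_matrix fun i j => ?_
    fin_cases i <;> fin_cases j <;> simp <;> fun_prop
  · show Continuous fun y : (Adl K)ˣ =>
      (!![((y⁻¹ : (Adl K)ˣ) : Adl K), 0; 0, 1] : Matrix (Fin 2) (Fin 2) (Adl K))
    refine continuous_matrix fun i j => ?_
    fin_cases i <;> fin_cases j <;> simp <;> fun_prop

theorem continuous_zA346 : Continuous (fun z : (Adl K)ˣ => zA57 K z) := by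
  rw [Units.continuous_iff]
  constructor
  · show Continuous fun z : (Adl K)ˣ =>
      (!![(z : Adl K), 0; 0, (z : Adl K)] : Matrix (Fin 2) (Fin 2) (Adl K))
    refine continuous_matrix fun i j => ?_
    fin_cases i <;> fin_cases j <;> simp <;> fun_prop
  · show Continuous fun z : (Adl K)ˣ =>
      (!![((z⁻¹ : (Adl K)ˣ) : Adl K), 0; 0, ((z⁻¹ : (Adl K)ˣ) : Adl K)] :
        Matrix (Fin 2) (Fin 2) (Adl K))
    refine continuous_matrix fun i j => ?_
    fin_cases i <;> fin_cases j <;> simp <;> fun_prop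

/-- `ι(x, y, z) = n(x) diag(y, 1) z` is continuous. -/
theorem continuous_iota346 : Continuous (iota57 K) := by
  unfold iota57
  exact (((continuous_unip346 K).comp continuous_fst).mul
    ((continuous_dgA346 K).comp (continuous_fst.comp continuous_snd))).mul
    ((continuous_zA346 K).comp (continuous_snd.comp continuous_snd))

theorem nrm_nonneg346 (y : (Adl K)ˣ) : 0 ≤ nrm57 K y := by
  unfold nrm57 Fermat.Agent.LT.T5.adNorm
  refine mul_nonneg (Finset.prod_nonneg fun w _ => pow_nonneg (norm_nonneg _) _) ?_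
  exact finprod_nonneg fun v => norm_nonneg _

theorem measurable_nrm346 :
    letI : MeasurableSpace (Adl K)ˣ := borel (Adl K)ˣ
    Measurable (nrm57 K) := by
  let _ : MeasurableSpace (Adl K)ˣ := borel (Adl K)ˣ
  have : BorelSpace (Adl K)ˣ := ⟨rfl⟩
  have : Countable (HeightOneSpectrum (𝓞 K)) := H724.countable_places724 K
  unfold nrm57 Fermat.Agent.LT.T5.adNorm
  refine Measurable.mul ?_ ?_
  · refine Finset.measurable_prod _ fun w _ => ?_
    exact ((continuous_norm.comp ((H724.continuous_inf724 w).comp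
      Units.continuous_val)).measurable).pow_const _
  · refine H724.measurable_finprod724 _ fun v => ?_
    exact (continuous_norm.comp ((H724.continuous_fin724 v).comp
      Units.continuous_val)).measurable

/-! ## Invariance of the real parts -/

variable {K}

theorem leftInvE_of346 {Φ : G K → ℂ} (h : IsLeftInv57 K Φ) (f : ℂ → ℝ) :
    IsLeftInvE57 K (fun g => ENNReal.ofReal (f (Φ g))) := fun γ g => by
  show ENNReal.ofReal (f (Φ _)) = ENNReal.ofReal (f (Φ g))
  rw [h γ g]

theorem rightCE_of346 {𝔪 : Ideal (𝓞 K)} {Φ : G K → ℂ} (h : IsRightC57 K 𝔪 Φ) (f : ℂ → ℝ) :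
    IsRightCE57 K 𝔪 (fun g => ENNReal.ofReal (f (Φ g))) := by
  refine ⟨fun u hu g => ?_, fun w k hk g => ?_⟩
  · show ENNReal.ofReal (f (Φ _)) = ENNReal.ofReal (f (Φ g))
    rw [h.1 u hu g]
  · show ENNReal.ofReal (f (Φ _)) = ENNReal.ofReal (f (Φ g))
    rw [h.2 w k hk g]

variable (K)

/-! ## The leaf -/

/-- **T7.14.6a-F.8 `CoreOfPosC57`**: from non-negative functions and `encard` to bounded
continuous complex functions and `cnt = Nat.card`. -/
theorem coreOfPosC346 : CoreOfPosC57 K := by
  intro hP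
  unfold CoreC57
  intro hTC μ F hF ν D hν hD hfd hνD τ hτ S 𝔪 hS FX hFX hfx hbox
  obtain ⟨c₀, hc₀, hpos⟩ := hP hTC μ F hF ν D hν hD hfd hνD τ hτ S 𝔪 hS FX hFX hfx
  refine ⟨c₀, hc₀, fun Φ hcont hbdd hleft hright Y hY => ?_⟩
  obtain ⟨C, hC⟩ := hbdd
  let iA : MeasurableSpace (Adl K) := borel (Adl K)
  let iX : MeasurableSpace (Adl K)ˣ := borel (Adl K)ˣ
  have bA : BorelSpace (Adl K) := ⟨rfl⟩
  have bX : BorelSpace (Adl K)ˣ := ⟨rfl⟩
  have bG : BorelSpace (G K) := H724.borelSpaceG724
  have sA : SecondCountableTopology (Adl K) := secondCountable_adl346 K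
  have sX : SecondCountableTopology (Adl K)ˣ := secondCountable_idl346 K
  have cP : Countable (Projectivization K (Fin 2 → K)) := H724.countable_proj724 K
  -- the data of the abstract glue
  have hN : Measurable fun g : G K => (((cntSet 𝔪 Y g).encard : ℕ∞) : ℝ≥0∞) :=
    measurable_encard346 (fun x => {g : G K | x ∈ cntSet 𝔪 Y g})
      (fun x => H724.measurableSet_mem_cntSet724 𝔪 Y x)
  have hn : ∀ g : G K, (((cntSet 𝔪 Y g).encard : ℕ∞) : ℝ≥0∞) < ⊤ →
      ((cnt 𝔪 Y g : ℕ) : ℝ≥0∞) = (((cntSet 𝔪 Y g).encard : ℕ∞) : ℝ≥0∞) := fun g hg =>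
    natCard_eq_encard346 (cntSet 𝔪 Y g) hg
  have hone := hpos (fun _ => 1) measurable_const (fun _ _ => rfl)
    ⟨fun _ _ _ => rfl, fun _ _ _ _ => rfl⟩ Y hY
  simp only [one_mul] at hone
  have hNfin : ∫⁻ g, (((cntSet 𝔪 Y g).encard : ℕ∞) : ℝ≥0∞) ∂(μ.restrict F) < ⊤ := by
    rw [hone]
    exact ENNReal.mul_lt_top ENNReal.ofReal_lt_top (hbox Y hY)
  have hw0 : ∀ p : Adl K × (Adl K)ˣ × (Adl K)ˣ, 0 ≤ (nrm57 K p.2.1)⁻¹ := fun p =>
    inv_nonneg.mpr (nrm_nonneg346 K _)
  have hwm : Measurable fun p : Adl K × (Adl K)ˣ × (Adl K)ˣ => (nrm57 K p.2.1)⁻¹ :=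
    ((measurable_nrm346 K).comp (measurable_fst.comp measurable_snd)).inv
  have hΦ : Measurable Φ := hcont.measurable
  have hΦj : Measurable fun p : Adl K × (Adl K)ˣ × (Adl K)ˣ => Φ (iota57 K p) :=
    (hcont.comp (continuous_iota346 K)).measurable
  exact integral_mul_card_eq_complex346 (μ.restrict F)
    ((ν.prod (τ.prod τ)).restrict (box57 K D FX Y))
    (fun g => (((cntSet 𝔪 Y g).encard : ℕ∞) : ℝ≥0∞)) (fun g => cnt 𝔪 Y g) (iota57 K)
    (fun p => (nrm57 K p.2.1)⁻¹) c₀ hN hn hNfin hw0 hwm (hbox Y hY) hc₀.le Φ hΦ hΦj C hC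
    (by
      rintro f (rfl | rfl | rfl | rfl)
      · exact hpos _ (Complex.measurable_re.comp hΦ).ennreal_ofReal
          (leftInvE_of346 hleft Complex.re) (rightCE_of346 hright Complex.re) Y hY
      · exact hpos _ (Complex.measurable_re.comp hΦ).neg.ennreal_ofReal
          (leftInvE_of346 hleft fun z => -z.re) (rightCE_of346 hright fun z => -z.re) Y hY
      · exact hpos _ (Complex.measurable_im.comp hΦ).ennreal_ofReal
          (leftInvE_of346 hleft Complex.im) (rightCE_of346 hright Complex.im) Y hY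
      · exact hpos _ (Complex.measurable_im.comp hΦ).neg.ennreal_ofReal
          (leftInvE_of346 hleft fun z => -z.im) (rightCE_of346 hright fun z => -z.im) Y hY)

/-- Check: the Prop is the frozen one, verbatim. -/
example : Fermat.Agent.LT.T7.H57.CoreOfPosC57 K := coreOfPosC346 K

end Fermat.Agent.LT.T7.H346

end
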