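import Mathlib
import Fermat.Agent.LT.T7.H561.OpsSpec
import Fermat.Agent.LT.T5.H415.AutT5
import Fermat.Agent.LT.H129.ResidueCard

/-!
# Row LT, tower T7, leaf T7.L2.2.B4.5 = `OpsPerC561` (helper346)

OFF-MAIN.  `opsPerC346 : H561.OpsPerC561 K K'`, unconditional.

* `o (j + ℓ) = o j`: `T5.H415.orbit_period415` for the shifted orbit (`IsCompData.cyc` for the
  bad element `1`).
* two explicit systems at the same place `w` define the same operators on the functions which
  are invariant under the Iwahori subgroup at `w`: the components are `!![a, 1; 1, 0]`, the class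
  modulo the Iwahori subgroup is the residue of `a`, each system meets every residue class once
  (`H129.card_residueField129`); `(ω)⁻¹ ω' = diag(c⁻¹ c', 1)` is in the Iwahori subgroup.
-/

set_option autoImplicit false

open AutomorphicForm IsDedekindDomain NumberField MeasureTheory
open scoped ComplexConjugate Matrix

noncomputable section

namespace Fermat.Agent.LT.T7.H346

open Fermat.Agent.LT.H556 Fermat.Agent.LT.H556.A0 Fermat.Agent.LT.T7 Fermat.Agent.LT.T7.H561

section Basic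

variable {K : Type} [Field K] [NumberField K]

/-- The raw component at the infinite place `w`. -/
def infRaw346 (w : InfinitePlace K) : Adl K →+* w.Completion :=
  (Pi.evalRingHom (fun v : InfinitePlace K => v.Completion) w).comp
    (RingHom.fst (InfiniteAdeleRing K) (FiniteAdeleRing (𝓞 K) K))

theorem trivAtInf_iff346 (w : InfinitePlace K) (g : G K) :
    TrivAtInf w g ↔ (g : Matrix (Fin 2) (Fin 2) (Adl K)).map (infRaw346 w) = 1 := by
  constructor
  · intro h
    exact Matrix.ext (fun i j => h i j)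
  · intro h i j
    have := congrFun (congrFun h i) j
    exact this

theorem trivAtInf_one346 (w : InfinitePlace K) : TrivAtInf w (1 : G K) := by
  rw [trivAtInf_iff346, Units.val_one, Matrix.map_one _ (map_zero _) (map_one _)]

theorem trivAtInf_mul346 (w : InfinitePlace K) {g h : G K} (hg : TrivAtInf w g)
    (hh : TrivAtInf w h) : TrivAtInf w (g * h) := by
  rw [trivAtInf_iff346] at hg hh ⊢
  rw [Units.val_mul, Matrix.map_mul, hg, hh, mul_one]

theorem trivAtInf_inv346 (w : InfinitePlace K) {g : G K} (hg : TrivAtInf w g) :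
    TrivAtInf w g⁻¹ := by
  rw [trivAtInf_iff346] at hg ⊢
  have h1 : ((g⁻¹ * g : G K) : Matrix (Fin 2) (Fin 2) (Adl K)).map (infRaw346 w) = 1 := by
    rw [inv_mul_cancel, Units.val_one, Matrix.map_one _ (map_zero _) (map_one _)]
  rw [Units.val_mul, Matrix.map_mul, hg, mul_one] at h1
  exact h1

theorem finComp_mul346 (v : HeightOneSpectrum (𝓞 K)) (g h : G K) :
    finComp v (g * h) = finComp v g * finComp v h := by
  rw [T5.finComp_eq_map, T5.finComp_eq_map, T5.finComp_eq_map, Units.val_mul, Matrix.map_mul]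

theorem finComp_one346 (v : HeightOneSpectrum (𝓞 K)) : finComp v (1 : G K) = 1 := by
  rw [T5.finComp_eq_map, Units.val_one, Matrix.map_one _ (map_zero _) (map_one _)]

theorem finComp_inv_mul346 (v : HeightOneSpectrum (𝓞 K)) (g : G K) :
    finComp v g⁻¹ * finComp v g = 1 := by
  rw [← finComp_mul346, inv_mul_cancel, finComp_one346]

theorem trivAtFin_one346 (v : HeightOneSpectrum (𝓞 K)) : TrivAtFin v (1 : G K) :=
  finComp_one346 v

theorem trivAtFin_mul346 (v : HeightOneSpectrum (𝓞 K)) {g h : G K} (hg : TrivAtFin v g)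
    (hh : TrivAtFin v h) : TrivAtFin v (g * h) := by
  unfold TrivAtFin at hg hh ⊢
  rw [finComp_mul346, hg, hh, mul_one]

theorem trivAtFin_inv346 (v : HeightOneSpectrum (𝓞 K)) {g : G K} (hg : TrivAtFin v g) :
    TrivAtFin v g⁻¹ := by
  unfold TrivAtFin at hg ⊢
  have := finComp_inv_mul346 v g
  rw [hg, mul_one] at this
  exact this

theorem isLocalAtFin_inv_mul346 {v : HeightOneSpectrum (𝓞 K)} {g h : G K}
    (hg : IsLocalAtFin v g) (hh : IsLocalAtFin v h) : IsLocalAtFin v (g⁻¹ * h) :=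
  ⟨fun w => trivAtInf_mul346 w (trivAtInf_inv346 w (hg.1 w)) (hh.1 w),
    fun v' hv' => trivAtFin_mul346 v' (trivAtFin_inv346 v' (hg.2 v' hv')) (hh.2 v' hv')⟩

/-- An element which is trivial at `v` is in the Iwahori subgroup at `v`. -/
theorem inIwahori_of_triv346 (v : HeightOneSpectrum (𝓞 K)) {g : G K} (hg : TrivAtFin v g) :
    T5.InIwahori v g := by
  have hg' : TrivAtFin v g⁻¹ := trivAtFin_inv346 v hg
  unfold TrivAtFin at hg hg'
  have hone : ∀ i j : Fin 2,
      (1 : Matrix (Fin 2) (Fin 2) (v.adicCompletion K)) i j ∈ v.adicCompletionIntegers K := by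
    intro i j
    by_cases hij : i = j
    · rw [hij, Matrix.one_apply_eq]
      exact one_mem _
    · rw [Matrix.one_apply_ne hij]
      exact zero_mem _
  refine ⟨fun i j => ?_, fun i j => ?_, ?_⟩
  · rw [hg]
    exact hone i j
  · rw [hg']
    exact hone i j
  · rw [hg]
    simp

/-- The inverse of `!![a, 1; 1, 0]`. -/
theorem finComp_inv_of_s346 (v : HeightOneSpectrum (𝓞 K)) {h : G K} {a : v.adicCompletion K}
    (hc : finComp v h = !![a, 1; 1, 0]) : finComp v h⁻¹ = !![0, 1; 1, -a] := by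
  have h1 := finComp_inv_mul346 v h
  rw [hc] at h1
  have h2 : (!![a, 1; 1, 0] : Matrix (Fin 2) (Fin 2) (v.adicCompletion K)) * !![0, 1; 1, -a]
      = 1 := by
    refine Matrix.ext (fun i j => ?_)
    fin_cases i <;> fin_cases j <;> simp [Matrix.mul_apply, Fin.sum_univ_two]
  calc finComp v h⁻¹ = finComp v h⁻¹ * (!![a, 1; 1, 0] * !![0, 1; 1, -a]) := by
        rw [h2, mul_one]
    _ = (finComp v h⁻¹ * !![a, 1; 1, 0]) * !![0, 1; 1, -a] := by rw [Matrix.mul_assoc]
    _ = !![0, 1; 1, -a] := by rw [h1, one_mul]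

theorem finComp_inv_mul_s346 (v : HeightOneSpectrum (𝓞 K)) {h h' : G K}
    {a a' : v.adicCompletion K} (hc : finComp v h = !![a, 1; 1, 0])
    (hc' : finComp v h' = !![a', 1; 1, 0]) :
    finComp v (h⁻¹ * h') = !![1, 0; a' - a, 1] := by
  rw [finComp_mul346, finComp_inv_of_s346 v hc, hc']
  refine Matrix.ext (fun i j => ?_)
  fin_cases i <;> fin_cases j <;>
    simp [Matrix.mul_apply, Fin.sum_univ_two, sub_eq_add_neg, add_comm]

/-- Two elements of shape `!![a, 1; 1, 0]` with congruent `a` differ by an element of the Iwahori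
subgroup. -/
theorem inIwahori_s346 (v : HeightOneSpectrum (𝓞 K)) {h h' : G K}
    {a a' : v.adicCompletion K} (hc : finComp v h = !![a, 1; 1, 0])
    (hc' : finComp v h' = !![a', 1; 1, 0]) (hv : Valued.v (a' - a) < 1) :
    T5.InIwahori v (h⁻¹ * h') := by
  have e1 := finComp_inv_mul_s346 v hc hc'
  have e2 : finComp v (h⁻¹ * h')⁻¹ = !![1, 0; a - a', 1] := by
    rw [mul_inv_rev, inv_inv]
    exact finComp_inv_mul_s346 v hc' hc
  have hv' : Valued.v (a - a') < 1 := by
    rw [← neg_sub, Valuation.map_neg]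
    exact hv
  have hint : ∀ b : v.adicCompletion K, Valued.v b < 1 → ∀ i j : Fin 2,
      (!![1, 0; b, 1] : Matrix (Fin 2) (Fin 2) (v.adicCompletion K)) i j
        ∈ v.adicCompletionIntegers K := by
    intro b hb i j
    fin_cases i <;> fin_cases j
    · exact one_mem _
    · exact zero_mem _
    · exact (HeightOneSpectrum.mem_adicCompletionIntegers _ _ _).2 hb.le
    · exact one_mem _
  refine ⟨fun i j => ?_, fun i j => ?_, ?_⟩
  · rw [e1]
    exact hint _ hv i j
  · rw [e2]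
    exact hint _ hv' i j
  · rw [e1]
    exact hv

/-- The inverse of `!![0, 1; c, 0]`. -/
theorem finComp_inv_of_w346 (v : HeightOneSpectrum (𝓞 K)) {h : G K} {c : v.adicCompletion K}
    (hc0 : c ≠ 0) (hc : finComp v h = !![0, 1; c, 0]) : finComp v h⁻¹ = !![0, c⁻¹; 1, 0] := by
  have h1 := finComp_inv_mul346 v h
  rw [hc] at h1
  have h2 : (!![0, 1; c, 0] : Matrix (Fin 2) (Fin 2) (v.adicCompletion K)) * !![0, c⁻¹; 1, 0]
      = 1 := by
    refine Matrix.ext (fun i j => ?_)
    fin_cases i <;> fin_cases j <;> simp [Matrix.mul_apply, Fin.sum_univ_two, hc0]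
  calc finComp v h⁻¹ = finComp v h⁻¹ * (!![0, 1; c, 0] * !![0, c⁻¹; 1, 0]) := by
        rw [h2, mul_one]
    _ = (finComp v h⁻¹ * !![0, 1; c, 0]) * !![0, c⁻¹; 1, 0] := by rw [Matrix.mul_assoc]
    _ = !![0, c⁻¹; 1, 0] := by rw [h1, one_mul]

theorem finComp_inv_mul_w346 (v : HeightOneSpectrum (𝓞 K)) {h h' : G K}
    {c c' : v.adicCompletion K} (hc0 : c ≠ 0) (hc : finComp v h = !![0, 1; c, 0])
    (hc' : finComp v h' = !![0, 1; c', 0]) :
    finComp v (h⁻¹ * h') = !![c⁻¹ * c', 0; 0, 1] := by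
  rw [finComp_mul346, finComp_inv_of_w346 v hc0 hc, hc']
  refine Matrix.ext (fun i j => ?_)
  fin_cases i <;> fin_cases j <;> simp [Matrix.mul_apply, Fin.sum_univ_two]

/-- Two normalisers `!![0, 1; ϖ, 0]` differ by an element of the Iwahori subgroup. -/
theorem inIwahori_w346 (v : HeightOneSpectrum (𝓞 K)) {h h' : G K}
    {c c' : v.adicCompletion K} (hv : Valued.v c = WithZero.exp (-1 : ℤ))
    (hv' : Valued.v c' = WithZero.exp (-1 : ℤ)) (hc : finComp v h = !![0, 1; c, 0])
    (hc' : finComp v h' = !![0, 1; c', 0]) : T5.InIwahori v (h⁻¹ * h') := by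
  have hne : (WithZero.exp (-1 : ℤ) : WithZero (Multiplicative ℤ)) ≠ 0 := WithZero.exp_ne_zero
  have hc0 : c ≠ 0 := by
    intro h0
    rw [h0, map_zero] at hv
    exact hne hv.symm
  have hc0' : c' ≠ 0 := by
    intro h0
    rw [h0, map_zero] at hv'
    exact hne hv'.symm
  have e1 := finComp_inv_mul_w346 v hc0 hc hc'
  have e2 : finComp v (h⁻¹ * h')⁻¹ = !![c'⁻¹ * c, 0; 0, 1] := by
    rw [mul_inv_rev, inv_inv]
    exact finComp_inv_mul_w346 v hc0' hc' hc
  have hu : Valued.v (c⁻¹ * c') = 1 := by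
    rw [map_mul, map_inv₀, hv, hv']
    exact inv_mul_cancel₀ hne
  have hu' : Valued.v (c'⁻¹ * c) = 1 := by
    rw [map_mul, map_inv₀, hv, hv']
    exact inv_mul_cancel₀ hne
  have hint : ∀ b : v.adicCompletion K, Valued.v b = 1 → ∀ i j : Fin 2,
      (!![b, 0; 0, 1] : Matrix (Fin 2) (Fin 2) (v.adicCompletion K)) i j
        ∈ v.adicCompletionIntegers K := by
    intro b hb i j
    fin_cases i <;> fin_cases j
    · exact (HeightOneSpectrum.mem_adicCompletionIntegers _ _ _).2 hb.le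
    · exact zero_mem _
    · exact zero_mem _
    · exact one_mem _
  refine ⟨fun i j => ?_, fun i j => ?_, ?_⟩
  · rw [e1]
    exact hint _ hu i j
  · rw [e2]
    exact hint _ hu' i j
  · rw [e1]
    simp

end Basic

/-! ## Two explicit systems at the same place -/

section Sys

variable {K : Type} [Field K] [NumberField K]

/-- An explicit system of representatives of `I s I / I` at `w` (the four fields of
`H561.IsIwSys561` on `Hs j`). -/
def IsSysAt346 (w : HeightOneSpectrum (𝓞 K)) (H : Finset (G K)) : Prop :=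
  H.card = Ideal.absNorm w.asIdeal ∧ (∀ h ∈ H, IsLocalAtFin w h) ∧
    (∀ h ∈ H, ∃ a : w.adicCompletion K,
      a ∈ w.adicCompletionIntegers K ∧ finComp w h = !![a, 1; 1, 0]) ∧
    ∀ h ∈ H, ∀ h' ∈ H, h ≠ h' → ¬ T5.InIwahori w (h⁻¹ * h')

/-- A normaliser `!![0, 1; ϖ, 0]` at `w`. -/
def IsNormAt346 (w : HeightOneSpectrum (𝓞 K)) (ω : G K) : Prop :=
  IsLocalAtFin w ω ∧ ∃ c : w.adicCompletion K, Valued.v c = WithZero.exp (-1 : ℤ) ∧
    finComp w ω = !![0, 1; c, 0]

open Classical in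
/-- The residue of the upper left entry. -/
def resOf346 (w : HeightOneSpectrum (𝓞 K)) (h : G K) :
    IsLocalRing.ResidueField (w.adicCompletionIntegers K) :=
  if hm : finComp w h 0 0 ∈ w.adicCompletionIntegers K then
    IsLocalRing.residue (w.adicCompletionIntegers K) ⟨finComp w h 0 0, hm⟩
  else 0

theorem resOf_eq346 (w : HeightOneSpectrum (𝓞 K)) {h : G K} {a : w.adicCompletion K}
    (ha : a ∈ w.adicCompletionIntegers K) (hc : finComp w h = !![a, 1; 1, 0]) :
    resOf346 w h = IsLocalRing.residue (w.adicCompletionIntegers K) ⟨a, ha⟩ := by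
  have e : finComp w h 0 0 = a := by
    rw [hc]
    rfl
  unfold resOf346
  rw [dif_pos (by rw [e]; exact ha)]
  congr 1
  exact Subtype.ext e

theorem valued_lt_of_res_eq346 (w : HeightOneSpectrum (𝓞 K)) {a a' : w.adicCompletion K}
    (ha : a ∈ w.adicCompletionIntegers K) (ha' : a' ∈ w.adicCompletionIntegers K)
    (h : IsLocalRing.residue (w.adicCompletionIntegers K) ⟨a, ha⟩
      = IsLocalRing.residue (w.adicCompletionIntegers K) ⟨a', ha'⟩) :
    Valued.v (a' - a) < 1 := by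
  have h0 : IsLocalRing.residue (w.adicCompletionIntegers K)
      ((⟨a', ha'⟩ : w.adicCompletionIntegers K) - ⟨a, ha⟩) = 0 := by
    rw [map_sub, h, sub_self]
  rw [Fermat.Agent.LT.H129.residue_eq_zero_iff_valued129] at h0
  exact h0

theorem resOf_injOn346 (w : HeightOneSpectrum (𝓞 K)) {H : Finset (G K)}
    (hH : IsSysAt346 w H) : Set.InjOn (resOf346 w) (H : Set (G K)) := by
  intro h hh h' hh' e
  by_contra hne
  obtain ⟨a, ha, hc⟩ := hH.2.2.1 h hh
  obtain ⟨a', ha', hc'⟩ := hH.2.2.1 h' hh'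
  rw [resOf_eq346 w ha hc, resOf_eq346 w ha' hc'] at e
  exact hH.2.2.2 h hh h' hh' hne (inIwahori_s346 w hc hc' (valued_lt_of_res_eq346 w ha ha' e))

theorem resOf_surj346 (w : HeightOneSpectrum (𝓞 K)) {H : Finset (G K)}
    (hH : IsSysAt346 w H) (c : IsLocalRing.ResidueField (w.adicCompletionIntegers K)) :
    ∃ h ∈ H, resOf346 w h = c := by
  classical
  haveI : Finite (IsLocalRing.ResidueField (w.adicCompletionIntegers K)) :=
    Fermat.Agent.LT.H129.finite_residueField129 K w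
  haveI : Fintype (IsLocalRing.ResidueField (w.adicCompletionIntegers K)) := Fintype.ofFinite _
  have hcard : (H.image (resOf346 w)).card
      = Fintype.card (IsLocalRing.ResidueField (w.adicCompletionIntegers K)) := by
    rw [Finset.card_image_of_injOn (resOf_injOn346 w hH), hH.1,
      ← Fermat.Agent.LT.H129.card_residueField129 K w, Nat.card_eq_fintype_card]
  have huniv : H.image (resOf346 w) = Finset.univ := Finset.eq_univ_of_card _ hcard
  have hc : c ∈ H.image (resOf346 w) := by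
    rw [huniv]
    exact Finset.mem_univ c
  obtain ⟨h, hh, e⟩ := Finset.mem_image.1 hc
  exact ⟨h, hh, e⟩

/-- **Two explicit systems at the same place define the same operator** on the functions
invariant under the Iwahori subgroup at the place. -/
theorem cosetOp_indep346 (w : HeightOneSpectrum (𝓞 K)) {H H' : Finset (G K)}
    (hH : IsSysAt346 w H) (hH' : IsSysAt346 w H') (ψ : G K → ℂ)
    (hψ : ∀ g : G K, IsLocalAtFin w g → T5.InIwahori w g → ∀ x : G K, ψ (x * g) = ψ x)
    (x : G K) : cosetOp H' ψ x = cosetOp H ψ x := by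
  classical
  unfold cosetOp
  refine Finset.sum_bij
    (fun h' _ => Classical.choose (resOf_surj346 w hH (resOf346 w h'))) ?_ ?_ ?_ ?_
  · intro h' _
    exact (Classical.choose_spec (resOf_surj346 w hH (resOf346 w h'))).1
  · intro h₁ hh₁ h₂ hh₂ e
    have e1 := (Classical.choose_spec (resOf_surj346 w hH (resOf346 w h₁))).2
    have e2 := (Classical.choose_spec (resOf_surj346 w hH (resOf346 w h₂))).2
    apply resOf_injOn346 w hH' hh₁ hh₂
    rw [← e1, ← e2]
    exact congrArg (resOf346 w) e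
  · intro h hh
    obtain ⟨h', hh', e⟩ := resOf_surj346 w hH' (resOf346 w h)
    refine ⟨h', hh', ?_⟩
    have e1 := Classical.choose_spec (resOf_surj346 w hH (resOf346 w h'))
    exact resOf_injOn346 w hH e1.1 hh (e1.2.trans e)
  · intro h' hh'
    have e1 := Classical.choose_spec (resOf_surj346 w hH (resOf346 w h'))
    obtain ⟨a, ha, hc⟩ := hH.2.2.1 _ e1.1
    obtain ⟨a', ha', hc'⟩ := hH'.2.2.1 h' hh'
    have e := e1.2
    rw [resOf_eq346 w ha hc, resOf_eq346 w ha' hc'] at e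
    have hI := inIwahori_s346 w hc hc' (valued_lt_of_res_eq346 w ha ha' e)
    have hloc := isLocalAtFin_inv_mul346 (hH.2.1 _ e1.1) (hH'.2.1 h' hh')
    have key := hψ _ hloc hI (x * Classical.choose (resOf_surj346 w hH (resOf346 w h')))
    rw [mul_assoc, mul_inv_cancel_left] at key
    exact key

theorem cosetOp_indep_eq346 (w w' : HeightOneSpectrum (𝓞 K)) (e : w' = w)
    {H H' : Finset (G K)} (hH : IsSysAt346 w H) (hH' : IsSysAt346 w' H') (ψ : G K → ℂ)
    (hψ : ∀ g : G K, IsLocalAtFin w g → T5.InIwahori w g → ∀ x : G K, ψ (x * g) = ψ x)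
    (x : G K) : cosetOp H' ψ x = cosetOp H ψ x := by
  subst e
  exact cosetOp_indep346 w' hH hH' ψ hψ x

/-- **Two normalisers at the same place define the same translation** on the functions invariant
under the Iwahori subgroup at the place. -/
theorem trOp_indep346 (w : HeightOneSpectrum (𝓞 K)) {ω ω' : G K}
    (hω : IsNormAt346 w ω) (hω' : IsNormAt346 w ω') (ψ : G K → ℂ)
    (hψ : ∀ g : G K, IsLocalAtFin w g → T5.InIwahori w g → ∀ x : G K, ψ (x * g) = ψ x)
    (x : G K) : trOp561 ω' ψ x = trOp561 ω ψ x := by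
  obtain ⟨hl, c, hv, hc⟩ := hω
  obtain ⟨hl', c', hv', hc'⟩ := hω'
  have hI := inIwahori_w346 w hv hv' hc hc'
  have hloc := isLocalAtFin_inv_mul346 hl hl'
  have key := hψ _ hloc hI (x * ω)
  rw [mul_assoc, mul_inv_cancel_left] at key
  exact key

theorem trOp_indep_eq346 (w w' : HeightOneSpectrum (𝓞 K)) (e : w' = w) {ω ω' : G K}
    (hω : IsNormAt346 w ω) (hω' : IsNormAt346 w' ω') (ψ : G K → ℂ)
    (hψ : ∀ g : G K, IsLocalAtFin w g → T5.InIwahori w g → ∀ x : G K, ψ (x * g) = ψ x)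
    (x : G K) : trOp561 ω' ψ x = trOp561 ω ψ x := by
  subst e
  exact trOp_indep346 w' hω hω' ψ hψ x

end Sys

/-! ## The orbit and the leaf -/

section Main

variable {K K' : Type} [Field K] [NumberField K] [Field K'] [NumberField K'] [Algebra K K']

theorem isBad_one346 (Dt : L2Data K K') : Dt.IsBad 1 :=
  ⟨fun w => trivAtInf_one346 w, fun v _ => trivAtFin_one346 v⟩

theorem cyc346 {ℓ : ℕ} {Φ : HeckeEigensystem K' ℂ} {Dt : L2Data K K'}
    (hD : IsL2Data ℓ Φ Dt) : T5.IsCyclicOfDegree Dt.s Dt.l Dt.k :=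
  (hD.comp 1 (isBad_one346 Dt)).cyc

theorem pos346 {ℓ : ℕ} {Φ : HeckeEigensystem K' ℂ} {Dt : L2Data K K'}
    (hD : IsL2Data ℓ Φ Dt) : 0 < ℓ := by
  rw [← hD.deg]
  exact (cyc346 hD).pos

/-- `o (j + ℓ) = o j`. -/
theorem orbit_add346 {ℓ : ℕ} {Φ : HeckeEigensystem K' ℂ} {Dt : L2Data K K'}
    (hD : IsL2Data ℓ Φ Dt) (j : ℕ) : Dt.o (j + ℓ) = Dt.o j := by
  have h := T5.H415.orbit_period415 Dt.s Dt.l Dt.k (cyc346 hD) (fun n => Dt.o (j + n))
    (fun n => hD.orbit_rel (j + n))
  rw [hD.deg] at h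
  simpa using h

/-- `o j = o (j mod ℓ)`. -/
theorem orbit_mod346 {ℓ : ℕ} {Φ : HeckeEigensystem K' ℂ} {Dt : L2Data K K'}
    (hD : IsL2Data ℓ Φ Dt) (j : ℕ) : Dt.o j = Dt.o (j % ℓ) := by
  have key : ∀ m r : ℕ, Dt.o (r + ℓ * m) = Dt.o r := by
    intro m
    induction m with
    | zero => intro r; simp
    | succ m ih =>
      intro r
      rw [Nat.mul_succ, ← add_assoc, orbit_add346 hD, ih]
  conv_lhs => rw [← Nat.mod_add_div j ℓ]
  exact key _ _

/-- A function invariant under the Iwahori subgroups along the orbit is invariant under the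
Iwahori subgroup at `o j` for EVERY `j`. -/
theorem iwInv_at346 {ℓ : ℕ} {Φ : HeckeEigensystem K' ℂ} {Dt : L2Data K K'}
    (hD : IsL2Data ℓ Φ Dt) {ψ : G K' → ℂ} (hψ : IsIwInv ℓ Dt.o ψ) (j : ℕ) (g : G K')
    (hl : IsLocalAtFin (Dt.o j) g) (hI : T5.InIwahori (Dt.o j) g) (x : G K') :
    ψ (x * g) = ψ x := by
  refine hψ g hl.1 ?_ ?_ x
  · intro v hv
    apply hl.2
    rw [orbit_mod346 hD j]
    exact hv (j % ℓ) (Nat.mod_lt _ (pos346 hD))
  · intro j' _
    by_cases e : Dt.o j' = Dt.o j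
    · rw [e]
      exact hI
    · exact inIwahori_of_triv346 _ (hl.2 _ e)

variable (K K')

/-- **LEAF T7.L2.2.B4.5 = OPS-PER**, VERBATIM. -/
theorem opsPerC346 : OpsPerC561 K K' := by
  intro ℓ Φ Dt hs Hs ω hsys j ψ hψ x
  have hD := hs.data
  have hper : Dt.o (j + ℓ) = Dt.o j := orbit_add346 hD j
  have hinv : ∀ g : G K', IsLocalAtFin (Dt.o j) g → T5.InIwahori (Dt.o j) g →
      ∀ x : G K', ψ (x * g) = ψ x := fun g hl hI x => iwInv_at346 hD hψ.iw j g hl hI x
  constructor
  · exact cosetOp_indep_eq346 (Dt.o j) (Dt.o (j + ℓ)) hper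
      ⟨hsys.Hs_card j, hsys.Hs_local j, hsys.Hs_comp j, hsys.Hs_inj j⟩
      ⟨hsys.Hs_card (j + ℓ), hsys.Hs_local (j + ℓ), hsys.Hs_comp (j + ℓ), hsys.Hs_inj (j + ℓ)⟩
      ψ hinv x
  · exact trOp_indep_eq346 (Dt.o j) (Dt.o (j + ℓ)) hper
      ⟨hsys.ω_local j, hsys.ω_comp j⟩ ⟨hsys.ω_local (j + ℓ), hsys.ω_comp (j + ℓ)⟩ ψ hinv x

example : OpsPerC561 K K' = (∀ (ℓ : ℕ) (Φ : HeckeEigensystem K' ℂ) (Dt : L2Data K K'),
    IsSetup561 ℓ Φ Dt →
    ∀ (Hs : ℕ → Finset (G K')) (ω : ℕ → G K'), IsIwSys561 Dt Hs ω →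
      ∀ (j : ℕ) (ψ : G K' → ℂ), IsWFn Dt.𝔑₀ Dt.R'.r ℓ Dt.o ψ → ∀ x : G K',
        cosetOp (Hs (j + ℓ)) ψ x = cosetOp (Hs j) ψ x ∧
        trOp561 (ω (j + ℓ)) ψ x = trOp561 (ω j) ψ x) := rfl

end Main

end Fermat.Agent.LT.T7.H346

end
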