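import Fermat.Agent.LT.T7.H40.ArchProjSpec

/-!
# Row LT, tower T7, leaf T7.L2.1.P1g `H40.AvgAutC` (helper346) -- OFF-MAIN

`avgAutC346 K : H40.AvgAutC K`, VERBATIM vs `LT/T7/H40/ArchProjSpec.lean` (helper40, sha256
`34d7f842`), UNCONDITIONAL.  The mean over the unit cube of a cusp function along a period family
is bounded (the cube has volume `1`) and automorphic of the same level (`Y t` is central).
-/

set_option autoImplicit false

open AutomorphicForm IsDedekindDomain NumberField MeasureTheory
open scoped ComplexConjugate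

noncomputable section

namespace Fermat.Agent.LT.T7.H346

open Fermat.Agent.LT.H556 Fermat.Agent.LT.H556.A0 Fermat.Agent.LT.T7 Fermat.Agent.LT.T7.H40

attribute [local instance] Fermat.Agent.LT.T5.instMeasurableSpaceG

variable (K : Type) [Field K] [NumberField K]

/-- The unit cube has volume `1`. -/
theorem volume_cube346 : volume (cube40 K) = 1 := by
  unfold cube40
  rw [Real.volume_pi_Ico]
  simp

variable {K}

/-- The mean of a function which does not change under `g ↦ F g` on the orbit. -/
theorem archAvg_congr346 (Y : (InfinitePlace K → ℝ) → G K) (ψ : G K → ℂ) (g g' : G K)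
    (h : ∀ t : InfinitePlace K → ℝ, ψ (g' * Y t) = ψ (g * Y t)) :
    archAvg40 Y ψ g' = archAvg40 Y ψ g := by
  unfold archAvg40
  simp only [h]

variable (K)

/-- **T7.L2.1.P1g `AvgAutC`**: the mean of a cusp function is bounded and automorphic of the
same level. -/
theorem avgAutC346 : AvgAutC K := by
  intro 𝔑 r Y hY ψ hψ
  obtain ⟨C, hC⟩ := hψ.bdd
  refine ⟨⟨C, fun g => ?_⟩, ⟨fun γ g => ?_, fun u hu g => ?_, fun w k hk g => ?_, fun g => ?_⟩⟩
  · have h := norm_setIntegral_le_of_norm_le_const (μ := volume) (s := cube40 K)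
      (f := fun t => ψ (g * Y t)) (C := C) (by rw [volume_cube346]; exact ENNReal.one_lt_top)
      (fun t _ => hC _)
    have h1 : (volume : Measure (InfinitePlace K → ℝ)).real (cube40 K) = 1 := by
      rw [Measure.real, volume_cube346]
      simp
    rw [h1, mul_one] at h
    exact h
  · refine archAvg_congr346 Y ψ g _ fun t => ?_
    rw [mul_assoc]
    exact hψ.aut.left_inv γ (g * Y t)
  · refine archAvg_congr346 Y ψ g _ fun t => ?_
    rw [mul_assoc, ← hY.central t u, ← mul_assoc]
    exact hψ.aut.level_inv u hu (g * Y t)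
  · have h1 : T5.trivType k = 1 := rfl
    rw [h1, one_mul]
    refine archAvg_congr346 Y ψ g _ fun t => ?_
    rw [mul_assoc, ← hY.central t k, ← mul_assoc, hψ.aut.arch_compact w k hk (g * Y t)]
    show (1 : ℂ) * ψ (g * Y t) = ψ (g * Y t)
    rw [one_mul]
  · refine archAvg_congr346 Y ψ g _ fun t => ?_
    rw [mul_assoc, ← hY.central t r, ← mul_assoc]
    exact hψ.aut.ray (g * Y t)

/-- Check: the Prop is the frozen one, verbatim. -/
example : Fermat.Agent.LT.T7.H40.AvgAutC K := avgAutC346 K

end Fermat.Agent.LT.T7.H346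

end
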